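import Mathlib
import Fermat.Prelude.Def_GroupCohomology_ContinuousUnramified

/-!
# S56, node [GW]: seams of the global (Greenberg–Wiles) count (prefix `s56gw_`)

Vocabulary = the frozen vocabulary of S55 (`continuousH1S`, `continuousH2S`, `continuousH1`,
`continuousH2`, `sha₁`, `sha₂`, `primeLocalToGlobal`, `archimedeanLoc`, `dualTwist`, `cycloChar`).

* `s56gw_Main_stmt` : the CONSUMER seam (pairing-free): Greenberg–Wiles inequality with auxiliary
  primes `T`, the dual Selmer group appearing only as a fixed finite-dimensional space `D` of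
  continuous classes of `M' = M.dualTwist (cycloChar p)` unramified outside `S`.
* `s56gw_DualSys` : the INTERNAL duality seam (local pairings, perfectness, reciprocity, middle
  exactness of Poitou–Tate).
* `s56gw_GEC_stmt`, `s56gw_LEC_stmt`, `s56gw_H2_stmt`, `s56gw_Unr_stmt` : the other internal seams.
-/

set_option autoImplicit false

open CategoryTheory Module groupCohomology ExtCitation

namespace Fermat.Agent.S56

local notation "GQ" => (AlgebraicClosure ℚ ≃ₐ[ℚ] AlgebraicClosure ℚ)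

section defs

variable {p : ℕ} [Fact p.Prime]

/-- The restriction of `M` to the local Galois group at the prime `q`. -/
noncomputable abbrev s56gw_res (M : Rep.{0} (ZMod p) GQ) (q : Nat.Primes) :
    Rep.{0} (ZMod p) (primeLocalGaloisGroup q) :=
  Rep.res (primeLocalToGlobal q) M

/-- The restriction of `M` to the archimedean decomposition group. -/
noncomputable abbrev s56gw_resInf (M : Rep.{0} (ZMod p) GQ) :
    Rep.{0} (ZMod p) ↥archimedeanDecomposition :=
  Rep.res archimedeanLoc M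

/-- The localisation map `H¹(G_ℚ, M) → H¹(G_q, M)`. -/
noncomputable def s56gw_loc (M : Rep.{0} (ZMod p) GQ) (q : Nat.Primes) :
    H1 M →ₗ[ZMod p] H1 (s56gw_res M q) :=
  (groupCohomology.map (primeLocalToGlobal q) (𝟙 (s56gw_res M q)) 1).hom

/-- The continuous local classes at `q`. -/
noncomputable def s56gw_cH1 (M : Rep.{0} (ZMod p) GQ) (q : Nat.Primes) :
    Submodule (ZMod p) (H1 (s56gw_res M q)) :=
  continuousH1 (primeLocalToGlobal q) (s56gw_res M q)

/-- The Cartier dual `M' = M^*(1)`. -/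
noncomputable abbrev s56gw_dual (M : Rep.{0} (ZMod p) GQ) : Rep.{0} (ZMod p) GQ :=
  M.dualTwist (cycloChar p)

/-- A local condition at every prime (only the primes of `S` are used). -/
abbrev s56gw_Cond (M : Rep.{0} (ZMod p) GQ) : Type :=
  ∀ q : Nat.Primes, Submodule (ZMod p) (H1 (s56gw_res M q))

/-- The Selmer group: continuous classes unramified outside `S ∪ T`, satisfying `L q` at the
primes `q ∈ S` (no condition at the primes of `T`). -/
noncomputable def s56gw_Sel (S T : Finset Nat.Primes) (M : Rep.{0} (ZMod p) GQ)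
    (L : s56gw_Cond M) : Submodule (ZMod p) (H1 M) :=
  continuousH1S (S ∪ T) M ⊓ ⨅ q ∈ S, (L q).comap (s56gw_loc M q)

/-- The classes of `D` that vanish locally at all primes of `T`. -/
noncomputable def s56gw_killed (T : Finset Nat.Primes) (M : Rep.{0} (ZMod p) GQ)
    (D : Submodule (ZMod p) (H1 M)) : Submodule (ZMod p) (H1 M) :=
  D ⊓ ⨅ q ∈ T, LinearMap.ker (s56gw_loc M q)

/-- `M` is a smooth `G_ℚ`-module. -/
def s56gw_Smooth (M : Rep.{0} (ZMod p) GQ) : Prop :=
  ∀ m : M, ∃ F : IntermediateField ℚ (AlgebraicClosure ℚ), FiniteDimensional ℚ F ∧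
    ∀ s ∈ F.fixingSubgroup, M.ρ s m = m

/-- `M` is unramified outside `S`. -/
def s56gw_UnrOut (S : Finset Nat.Primes) (M : Rep.{0} (ZMod p) GQ) : Prop :=
  ∀ q : Nat.Primes, q ∉ S → ∀ A : ValuationSubring (AlgebraicClosure ℚ),
    A.LiesOverPrime (q : ℕ) → ∀ g ∈ A.inertiaSubgroupIn ℚ, M.ρ g = 1

/-- `H⁰(G_ℚ, M) = 0`. -/
def s56gw_NoInv (M : Rep.{0} (ZMod p) GQ) : Prop :=
  ∀ m : M, (∀ σ : GQ, M.ρ σ m = m) → m = 0

end defs

/-- **CONSUMER SEAM of [GW]** (Greenberg–Wiles inequality with auxiliary primes, pairing-free).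

For `p` odd, `S ∋ p`, `M` finite, smooth, unramified outside `S`, with `H⁰(M) = H⁰(M') = 0`, and
local conditions `L q ≤` continuous classes (`q ∈ S`): there is a finite-dimensional space `D` of
continuous classes of `M'` unramified outside `S` (the dual Selmer group) such that for EVERY
finite set `T` of primes disjoint from `S`

`dim Sel_{S ∪ T}(L; no condition at T) + Σ_{q ∈ S} h⁰(G_q, M) + h⁰(G_∞, M) + Σ_{q ∈ T} h⁰(G_q, M)
   ≤ Σ_{q ∈ S} dim L_q + Σ_{q ∈ T} h¹(G_q, M) + dim {y ∈ D | y_q = 0 for all q ∈ T}`. -/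
def s56gw_Main_stmt : Prop :=
  ∀ (p : ℕ) [Fact p.Prime], p ≠ 2 → ∀ (S : Finset Nat.Primes), pPrime p ∈ S →
  ∀ (M : Rep.{0} (ZMod p) GQ) [FiniteDimensional (ZMod p) M],
    s56gw_Smooth M → s56gw_UnrOut S M → s56gw_NoInv M → s56gw_NoInv (s56gw_dual M) →
  ∀ L : s56gw_Cond M, (∀ q ∈ S, L q ≤ s56gw_cH1 M q) →
  ∃ D : Submodule (ZMod p) (H1 (s56gw_dual M)),
    D ≤ continuousH1S S (s56gw_dual M) ∧ FiniteDimensional (ZMod p) D ∧
    ∀ T : Finset Nat.Primes, Disjoint S T →
      FiniteDimensional (ZMod p) (s56gw_Sel S T M L) ∧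
      finrank (ZMod p) (s56gw_Sel S T M L)
          + ∑ q ∈ S, finrank (ZMod p) (s56gw_res M q).ρ.invariants
          + finrank (ZMod p) (s56gw_resInf M).ρ.invariants
          + ∑ q ∈ T, finrank (ZMod p) (s56gw_res M q).ρ.invariants
        ≤ ∑ q ∈ S, finrank (ZMod p) (L q)
          + ∑ q ∈ T, finrank (ZMod p) (s56gw_cH1 M q)
          + finrank (ZMod p) (s56gw_killed T (s56gw_dual M) D)

/-- **INTERNAL SEAM [GW-DUAL]**: a system of local pairings for `M`, perfect on continuous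
classes, satisfying global reciprocity and the middle exactness of Poitou–Tate, for every finite
set `S ∋ p` outside of which `M` is unramified. -/
structure s56gw_DualSys (p : ℕ) [Fact p.Prime] (M : Rep.{0} (ZMod p) GQ) where
  /-- the local pairings -/
  B : ∀ q : Nat.Primes,
    H1 (s56gw_res M q) →ₗ[ZMod p] H1 (s56gw_res (s56gw_dual M) q) →ₗ[ZMod p] ZMod p
  /-- finiteness of the continuous local classes -/
  fin : ∀ q, FiniteDimensional (ZMod p) (s56gw_cH1 M q)
  fin' : ∀ q, FiniteDimensional (ZMod p) (s56gw_cH1 (s56gw_dual M) q)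
  /-- left non-degeneracy on continuous classes -/
  left : ∀ q, ∀ x ∈ s56gw_cH1 M q,
    (∀ y ∈ s56gw_cH1 (s56gw_dual M) q, B q x y = 0) → x = 0
  /-- right non-degeneracy on continuous classes -/
  right : ∀ q, ∀ y ∈ s56gw_cH1 (s56gw_dual M) q,
    (∀ x ∈ s56gw_cH1 M q, B q x y = 0) → y = 0
  /-- global reciprocity -/
  recip : ∀ S : Finset Nat.Primes, pPrime p ∈ S → s56gw_UnrOut S M →
    ∀ x ∈ continuousH1S S M, ∀ y ∈ continuousH1S S (s56gw_dual M),
      ∑ q ∈ S, B q (s56gw_loc M q x) (s56gw_loc (s56gw_dual M) q y) = 0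
  /-- middle exactness of Poitou–Tate -/
  middle : ∀ S : Finset Nat.Primes, pPrime p ∈ S → s56gw_UnrOut S M →
    ∀ ξ : ∀ q : Nat.Primes, H1 (s56gw_res M q), (∀ q ∈ S, ξ q ∈ s56gw_cH1 M q) →
      (∀ y ∈ continuousH1S S (s56gw_dual M),
        ∑ q ∈ S, B q (ξ q) (s56gw_loc (s56gw_dual M) q y) = 0) →
      ∃ x ∈ continuousH1S S M, ∀ q ∈ S, s56gw_loc M q x = ξ q

/-- **INTERNAL SEAM [GW-DUAL]** as a Prop. -/
def s56gw_Dual_stmt : Prop :=
  ∀ (p : ℕ) [Fact p.Prime], p ≠ 2 →
  ∀ (M : Rep.{0} (ZMod p) GQ) [FiniteDimensional (ZMod p) M],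
    s56gw_Smooth M → Nonempty (s56gw_DualSys p M)

/-- **INTERNAL SEAM [GW-GEC]**: Tate's global Euler characteristic, as the upper bound
`h¹(G_S, M) + h⁰(G_∞, M) ≤ h⁰(G_ℚ, M) + h²(G_S, M) + dim M` (with the finiteness statements). -/
def s56gw_GEC_stmt : Prop :=
  ∀ (p : ℕ) [Fact p.Prime], p ≠ 2 → ∀ (S : Finset Nat.Primes), pPrime p ∈ S →
  ∀ (M : Rep.{0} (ZMod p) GQ) [FiniteDimensional (ZMod p) M],
    s56gw_Smooth M → s56gw_UnrOut S M →
    FiniteDimensional (ZMod p) (continuousH1S S M) ∧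
    FiniteDimensional (ZMod p) (continuousH2S S M) ∧
    finrank (ZMod p) (continuousH1S S M) + finrank (ZMod p) (s56gw_resInf M).ρ.invariants
      ≤ finrank (ZMod p) M.ρ.invariants + finrank (ZMod p) (continuousH2S S M)
        + finrank (ZMod p) M

/-- **INTERNAL SEAM [GW-LEC]**: Tate's local Euler characteristic, as the lower bound
`h²(G_q, M) + h⁰(G_q, M) + [q = p] dim M ≤ h¹(G_q, M)` (with the finiteness statements). -/
def s56gw_LEC_stmt : Prop :=
  ∀ (p : ℕ) [Fact p.Prime], p ≠ 2 →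
  ∀ (M : Rep.{0} (ZMod p) GQ) [FiniteDimensional (ZMod p) M], s56gw_Smooth M →
  ∀ q : Nat.Primes,
    FiniteDimensional (ZMod p) (s56gw_cH1 M q) ∧
    FiniteDimensional (ZMod p) (continuousH2 (primeLocalToGlobal q) (s56gw_res M q)) ∧
    finrank (ZMod p) (continuousH2 (primeLocalToGlobal q) (s56gw_res M q))
        + finrank (ZMod p) (s56gw_res M q).ρ.invariants
        + (if q = pPrime p then finrank (ZMod p) M else 0)
      ≤ finrank (ZMod p) (s56gw_cH1 M q)

/-- **INTERNAL SEAM [GW-H2]**: `h²(G_S, M) ≤ dim Ш²_S(M) + Σ_{q ∈ S} h²(G_q, M)` (the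
archimedean `H²` vanishes, `p` odd). -/
def s56gw_H2_stmt : Prop :=
  ∀ (p : ℕ) [Fact p.Prime], p ≠ 2 → ∀ (S : Finset Nat.Primes), pPrime p ∈ S →
  ∀ (M : Rep.{0} (ZMod p) GQ) [FiniteDimensional (ZMod p) M],
    s56gw_Smooth M → s56gw_UnrOut S M →
    FiniteDimensional (ZMod p) (continuousH2S S M) →
    (∀ q ∈ S, FiniteDimensional (ZMod p)
      (continuousH2 (primeLocalToGlobal q) (s56gw_res M q))) →
    finrank (ZMod p) (continuousH2S S M)
      ≤ finrank (ZMod p) (sha₂ S M)
        + ∑ q ∈ S, finrank (ZMod p) (continuousH2 (primeLocalToGlobal q) (s56gw_res M q))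

/-- **INTERNAL SEAM [GW-UNR]**: a continuous class unramified outside `S ∪ T` which is locally
trivial at every prime of `T` (where `M` is unramified) is unramified outside `S`. -/
def s56gw_Unr_stmt : Prop :=
  ∀ (p : ℕ) [Fact p.Prime] (S T : Finset Nat.Primes)
    (M : Rep.{0} (ZMod p) GQ), s56gw_Smooth M → s56gw_UnrOut S M →
    ∀ y ∈ continuousH1S (S ∪ T) M, (∀ q ∈ T, s56gw_loc M q y = 0) → y ∈ continuousH1S S M

end Fermat.Agent.S56
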